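/-
Auto A7: classes invariant under the kernel of a quotient of the diamond group come from the level
of the quotient.
-/
import Fermat.Agent.Auto.Free
import Fermat.Agent.Auto.New.Restrict

set_option autoImplicit false
set_option linter.unusedSectionVars false
set_option linter.style.haveILetI false

noncomputable section

namespace Fermat.Agent.Auto

open CongruenceSubgroup IsLocalRing
open Fermat.Agent.GalRep (IMat GoodPrime trace_pow_sq_eq_four)
open Fermat.Agent.DS (IsReps diaMat diaMat_mem diaMat_eleven)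
open scoped MatrixGroups

variable {M : ℕ} [NeZero M] {Δ Δ' : Type} [CommGroup Δ] [CommGroup Δ'] {c : (ZMod M)ˣ →* Δ}

theorem grp_le_comp (π : Δ →* Δ') : grp M c ≤ grp M (π.comp c) := fun _ h =>
  ⟨h.1, fun u hu => by rw [MonoidHom.comp_apply, h.2 u hu, map_one]⟩

/-- The quotient datum of `grp M c ≤ grp M (π ∘ c)`. -/
def kerQuot (hc : Function.Surjective c) (π : Δ →* Δ') :
    LevQuot (grp M c) (grp M (π.comp c)) π.ker where
  toHom := MonoidHom.mk' (fun γ => ⟨(c (elevenUnit γ.2.1))⁻¹, by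
      rw [MonoidHom.mem_ker, map_inv, inv_eq_one]
      exact γ.2.2 _ rfl⟩) fun a b => Subtype.ext (by
    show (c _)⁻¹ = (c _)⁻¹ * (c _)⁻¹
    rw [show elevenUnit (a * b).2.1 = elevenUnit (mul_mem a.2.1 b.2.1) from rfl,
      elevenUnit_mul a.2.1 b.2.1, map_mul, mul_inv])
  le := grp_le_comp π
  surj x := by
    obtain ⟨d, hd⟩ := hc (x : Δ)⁻¹
    have he : elevenUnit (diaMat_mem d) = d := Units.ext (diaMat_eleven d)
    refine ⟨⟨diaMat d, diaMat_mem d, fun u hu => ?_⟩, Subtype.ext ?_⟩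
    · rw [show u = d from Units.ext (hu.trans (diaMat_eleven d)), MonoidHom.comp_apply, hd, map_inv,
        MonoidHom.mem_ker.mp x.2, inv_one]
    · show (c (elevenUnit (diaMat_mem d)))⁻¹ = _
      rw [he, hd, inv_inv]
  ker_iff γ := by
    rw [Subtype.ext_iff]
    show (c (elevenUnit γ.2.1))⁻¹ = 1 ↔ _
    rw [inv_eq_one]
    exact ⟨fun h => ⟨γ.2.1, fun u hu => by rw [show u = elevenUnit γ.2.1 from Units.ext hu, h]⟩,
      fun h => h.2 _ rfl⟩

theorem kerQuot_class (hc : Function.Surjective c) (π : Δ →* Δ') (ℓ : GoodPrime M)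
    (γ : grp M (π.comp c)) (i : Option (Fin ((ℓ : Nat.Primes) : ℕ))) :
    (kerQuot hc π).toHom ((isReps_grp (c := π.comp c) ℓ.1.2 ℓ.2 (gpDia ℓ)).coef γ i) =
      (kerQuot hc π).toHom γ := by
  obtain ⟨j, g, h0, h1, h⟩ := DS.exists_step_hecke ℓ.1.2 ℓ.2 (gpDia ℓ) γ.2.1 i
  rw [((isReps_grp (c := π.comp c) ℓ.1.2 ℓ.2 (gpDia ℓ)).unique
    (g := ⟨g, mem_grp_of_eleven h0 γ.2 h1⟩) h).2]
  refine Subtype.ext ?_
  show (c _)⁻¹ = (c _)⁻¹
  exact congrArg (fun u => (c u)⁻¹) (Units.ext h1)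

theorem kerQuot_dia (hc : Function.Surjective c) (π : Δ →* Δ') {A : Type} [AddCommGroup A]
    (R : Type) [CommRing R] [Module R A] (k : π.ker) (f : Additive (grp M c) →+ A) :
    (kerQuot hc π).dia R k f = (grpQuot hc).dia R (k : Δ) f := by
  refine AddMonoidHom.ext fun x => ?_
  obtain ⟨γ, rfl⟩ := Additive.ofMul.surjective x
  rw [LevQuot.dia_apply, LevQuot.dia_apply]
  set s := (kerQuot hc π).sec k
  rw [(grpQuot hc).apply_conj_eq f (h' := ⟨(s : SL(2, ℤ)), mem_grp_one.mpr s.2.1⟩)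
    (((grpQuot hc).toHom_sec _).trans (congrArg Subtype.val ((kerQuot hc π).toHom_sec k)).symm)]
  rfl

variable {p : ℕ} [Fact p.Prime] {O : Type} [CommRing O] [IsDomain O] [IsDiscreteValuationRing O]
  [IsAdicComplete (maximalIdeal O) O] [Finite (ResidueField O)] [CharZero O] [Fintype Δ]
  [Fintype Δ'] [DecidableEq Δ'] {S : Finset ℕ} {a : ℕ → O}

/-- A norm over the kernel of `π` comes from the level of `π ∘ c`. -/
theorem exists_latRes_eq_norm (hp5 : 5 ≤ p) (hp : (p : O) ∈ maximalIdeal O)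
    (hMS : ∀ r : ℕ, r.Prime → r ∣ M → r ∈ S) (hne : NonEis S a) (hc : Function.Surjective c)
    (π : Δ →* Δ') {x : Lat M c O} (hx : x ∈ latLoc M c O S a) :
    ∃ y ∈ latLoc M (π.comp c) O S a, latRes (grp_le_comp π) y =
      ∑ u ∈ Finset.univ.filter (fun u => π u = 1), latDelta M c O hc u x := by
  classical
  haveI : Fintype π.ker := Fintype.ofFinite _
  set N := ∑ u ∈ Finset.univ.filter (fun u => π u = 1), latDelta M c O hc u x
  have hN : N.1 = ∑ u : π.ker, (grpQuot hc).dia O (u : Δ) x.1 := by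
    simp only [N, Submodule.coe_sum, coe_latDelta]
    exact Finset.sum_subtype _ (fun u => by simp [MonoidHom.mem_ker]) _
  have hNinv : ∀ k : π.ker, (grpQuot hc).dia O (k : Δ) N.1 = N.1 := fun k => by
    rw [hN, map_sum]
    refine Eq.trans (Finset.sum_congr rfl fun u _ => ?_)
      (Equiv.sum_comp (Equiv.mulLeft k) fun u : π.ker => (grpQuot hc).dia O (u : Δ) x.1)
    rw [Equiv.coe_mulLeft, Subgroup.coe_mul, map_mul, Module.End.mul_apply]
  have hNmem : N.1 ∈ homLoc M c O S a := by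
    rw [hN]
    exact Submodule.sum_mem _ fun u _ =>
      dia_mem_homLoc hc _ ((mem_latLoc_iff hp5 hp hMS hne x).mp hx)
  obtain ⟨i, -, -, hiE⟩ := exists_eis_prime hp hMS hne
  set ℓ : ℕ := ((i.1 : Nat.Primes) : ℕ)
  obtain ⟨⟨N₁, hN₁⟩, hU⟩ := (bijective_restrict_locPart
    (a := fun i : PrimeOff M S => a ((i.1 : Nat.Primes) : ℕ))
    (T := hT' M c O S) hT'_commute i hiE).2 ⟨N.1, hNmem⟩
  have hU' : homT c O O i.1 N₁ - (ℓ + 1) • N₁ = N.1 := by
    refine Eq.trans ?_ (congrArg Subtype.val hU :)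
    show _ = (hT' M c O S i - algebraMap O _ ((ℓ : O) + 1)) N₁
    rw [LinearMap.sub_apply, Module.algebraMap_end_apply, ← Nat.cast_add_one,
      Nat.cast_smul_eq_nsmul]
  have hinv : ∀ k : π.ker, (kerQuot hc π).dia O k N₁ = N₁ := fun k => by
    rw [kerQuot_dia]
    refine congrArg Subtype.val ((bijective_restrict_locPart
      (a := fun i : PrimeOff M S => a ((i.1 : Nat.Primes) : ℕ)) (T := hT' M c O S) hT'_commute i
      hiE).1 (a₁ := ⟨_, dia_mem_homLoc hc (k : Δ) hN₁⟩) (a₂ := ⟨N₁, hN₁⟩) (Subtype.ext ?_))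
    show (hT' M c O S i - algebraMap O _ ((ℓ : O) + 1)) ((grpQuot hc).dia O (k : Δ) N₁) =
      (hT' M c O S i - algebraMap O _ ((ℓ : O) + 1)) N₁
    have hcomm : homT c O O i.1 ((grpQuot hc).dia O (k : Δ) N₁) =
        (grpQuot hc).dia O (k : Δ) (homT c O O i.1 N₁) :=
      (LinearMap.congr_fun (homT_dia hc i.1 (k : Δ)).eq N₁).symm
    simp only [LinearMap.sub_apply, Module.algebraMap_end_apply, ← Nat.cast_add_one,
      Nat.cast_smul_eq_nsmul]
    rw [hcomm, ← map_nsmul, ← map_sub, hU', hNinv]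
  obtain ⟨φ, hφ⟩ := exists_res_eq_transfer_sub (kerQuot hc π)
    (isReps_grp (c := c) i.1.1.2 i.1.2 (gpDia i.1))
    (isReps_grp (c := π.comp c) i.1.1.2 i.1.2 (gpDia i.1)) O (kerQuot_class hc π i.1) N₁ hinv
  rw [Fintype.card_option, Fintype.card_fin] at hφ
  have hres : (kerQuot hc π).res O φ = N.1 := hφ.trans hU'
  have hcompat : ∀ (j : PrimeOff M S) (w : Additive (grp M (π.comp c)) →+ O),
      (kerQuot hc π).res O (hT' M (π.comp c) O S j w) = hT' M c O S j ((kerQuot hc π).res O w) :=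
    fun j w => res_transfer (kerQuot hc π) _ _ O w
  set φ' := locProj (fun j : PrimeOff M S => a ((j.1 : Nat.Primes) : ℕ))
    (T := hT' M (π.comp c) O S) hT'_commute φ
  have hφ' : φ' ∈ homLoc M (π.comp c) O S a := locProj_mem _ hT'_commute φ
  refine ⟨⟨φ', homLoc_le_parabolic hp5 hp hMS hne hφ'⟩,
    (mem_latLoc_iff hp5 hp hMS hne _).mpr hφ', Subtype.ext ?_⟩
  show (kerQuot hc π).res O φ' = N.1
  have e := locProj_natural (fun j : PrimeOff M S => a ((j.1 : Nat.Primes) : ℕ))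
    (T := hT' M (π.comp c) O S) hT'_commute (T' := hT' M c O S) hT'_commute
    ((kerQuot hc π).res O) hcompat φ
  rw [e, hres]
  exact locProj_apply_of_mem _ hT'_commute hNmem

end Fermat.Agent.Auto
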